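import Mathlib.RingTheory.Regular.ProjectiveDimension
import Mathlib.RingTheory.MvPowerSeries.Equiv
import Mathlib.RingTheory.MvPowerSeries.Inverse
import Mathlib.RingTheory.PowerSeries.Inverse
import Mathlib.RingTheory.DiscreteValuationRing.Basic

/-!
# Syzygy bound for power series rings over a discrete valuation ring

An elementary proof that finitely generated modules over `O[[X_1, ..., X_r]]`, for `O` a DVR,
have projective dimension at most `r + 1`, and that a finitely generated module having a
regular sequence of length `r + 1` is free.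
-/

set_option autoImplicit false

namespace Fermat.Agent.Patching

open IsLocalRing CategoryTheory RingTheory.Sequence Pointwise

/-- `SyzFree R k M`: every `k`-th syzygy of `M` (for finite free resolutions) is free. -/
def SyzFree (R : Type) [CommRing R] : ℕ → ∀ (M : Type) [AddCommGroup M] [Module R M], Prop
  | 0, M, _, _ => Module.Free R M
  | k + 1, M, _, _ => ∀ (m : ℕ) (f : (Fin m → R) →ₗ[R] M), Function.Surjective f →
      SyzFree R k (LinearMap.ker f)

/-- All finitely generated `R`-modules have free `n`-th syzygies. -/
def SyzBound (R : Type) [CommRing R] (n : ℕ) : Prop :=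
  ∀ (M : Type) [AddCommGroup M] [Module R M], Module.Finite R M → SyzFree R n M

variable {R S : Type} [CommRing R] [CommRing S] [Algebra R S]

/-- Descent of freeness modulo a regular element. -/
lemma free_of_free_quot [IsNoetherianRing R] [IsLocalRing R] {x : R} (hx : x ∈ maximalIdeal R)
    (hker : ∀ a : R, algebraMap R S a = 0 ↔ x ∣ a)
    (hsurj : Function.Surjective (algebraMap R S))
    {K W : Type} [AddCommGroup K] [Module R K] [Module.Finite R K]
    [AddCommGroup W] [Module S W] [Module R W] [IsScalarTower R S W]
    (reg : IsSMulRegular K x)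
    (q : K →ₗ[R] W) (hq : Function.Surjective q)
    (hqker : ∀ k : K, q k = 0 ↔ ∃ z : K, k = x • z)
    [Module.Free S W] : Module.Free R K := by
  classical
  let ι := Module.Free.ChooseBasisIndex S W
  let β : Module.Basis ι S W := Module.Free.chooseBasis S W
  choose w hw using fun i => hq (β i)
  let g : (ι →₀ R) →ₗ[R] K := Finsupp.linearCombination R w
  let h : (ι →₀ R) →ₗ[R] (ι →₀ S) := Finsupp.mapRange.linearMap (Algebra.linearMap R S)
  have hcomp : ∀ v, q (g v) = β.repr.symm (h v) := by
    intro v
    have : q.comp g = (β.repr.symm.toLinearMap.restrictScalars R).comp h := by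
      ext i
      simp [g, h, hw]
    exact LinearMap.congr_fun this v
  have hle : Ideal.span {x} ≤ (⊥ : Ideal R).jacobson := by
    rw [IsLocalRing.jacobson_eq_maximalIdeal ⊥ bot_ne_top]
    simpa [Ideal.span_singleton_le_iff_mem] using hx
  have hsurjg : Function.Surjective g := by
    rw [← LinearMap.range_eq_top, eq_top_iff]
    apply Submodule.le_of_le_smul_of_le_jacobson_bot (I := Ideal.span {x}) Module.Finite.fg_top hle
    intro k _
    obtain ⟨v, hv⟩ := Finsupp.mapRange_surjective (α := ι) (algebraMap R S) (map_zero _) hsurj
      (β.repr (q k))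
    have hqk : q (k - g v) = 0 := by
      rw [map_sub, hcomp]
      have : h v = β.repr (q k) := hv
      simp [this]
    obtain ⟨z, hz⟩ := (hqker _).1 hqk
    have hk : k = g v + x • z := by rw [← hz]; abel
    rw [hk]
    exact Submodule.add_mem_sup ⟨v, rfl⟩
      (Submodule.smul_mem_smul (Ideal.mem_span_singleton_self x) Submodule.mem_top)
  have hinj : LinearMap.ker g = ⊥ := by
    apply Submodule.eq_bot_of_le_smul_of_le_jacobson_bot (Ideal.span {x}) _ _ _ hle
    · have : Module.FinitePresentation R K :=
        Module.finitePresentation_of_finite R K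
      have : Finite ι := by
        have : Module.Finite R W := Module.Finite.of_surjective q hq
        have : Module.Finite S W := Module.Finite.of_restrictScalars_finite R S W
        exact Finite.of_fintype _
      exact IsNoetherian.noetherian _
    · intro v hv
      have hv0 : g v = 0 := hv
      have h0 : h v = 0 := by
        have := hcomp v
        rw [hv0, map_zero] at this
        exact β.repr.symm.map_eq_zero_iff.1 this.symm
      have hdvd : ∀ i, x ∣ v i := by
        intro i
        rw [← hker]
        simpa [h] using Finsupp.ext_iff.1 h0 i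
      choose u hu using hdvd
      let z : ι →₀ R := Finsupp.onFinset v.support (fun i => if v i = 0 then 0 else u i)
        (fun i hi => by
          simp only [Finsupp.mem_support_iff]
          intro h'
          simp [h'] at hi)
      have hvz : v = x • z := by
        ext i
        simp only [Finsupp.smul_apply, z, Finsupp.onFinset_apply, smul_eq_mul]
        split_ifs with h'
        · simp [h']
        · exact hu i
      have hz : g z = 0 := by
        apply reg
        simpa [← map_smul, ← hvz] using hv0
      rw [hvz]
      exact Submodule.smul_mem_smul (Ideal.mem_span_singleton_self x) hz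
  exact Module.Free.of_equiv (LinearEquiv.ofBijective g ⟨LinearMap.ker_eq_bot.1 hinj, hsurjg⟩)

/-- Descent of the syzygy condition modulo a regular element. -/
lemma syzFree_of_quot [IsNoetherianRing R] [IsLocalRing R] {x : R} (hx : x ∈ maximalIdeal R)
    (hxR : IsSMulRegular R x)
    (hker : ∀ a : R, algebraMap R S a = 0 ↔ x ∣ a)
    (hsurj : Function.Surjective (algebraMap R S)) (k : ℕ) :
    ∀ (K W : Type) [AddCommGroup K] [Module R K] [Module.Finite R K]
      [AddCommGroup W] [Module S W] [Module R W] [IsScalarTower R S W],
      IsSMulRegular K x → ∀ q : K →ₗ[R] W, Function.Surjective q →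
      (∀ k : K, q k = 0 ↔ ∃ z : K, k = x • z) → SyzFree S k W → SyzFree R k K := by
  induction k with
  | zero =>
    intro K W _ _ _ _ _ _ _ reg q hq hqker hW
    have : Module.Free S W := hW
    exact free_of_free_quot hx hker hsurj reg q hq hqker
  | succ k ih =>
    intro K W _ _ _ _ _ _ _ reg q hq hqker hW m f hf
    let fS : (Fin m → S) →ₗ[S] W := Fintype.linearCombination S (fun i => q (f (Pi.single i 1)))
    let c : (Fin m → R) →ₗ[R] (Fin m → S) := LinearMap.compLeft (Algebra.linearMap R S) (Fin m)
    have hc : ∀ v, fS (c v) = q (f v) := by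
      intro v
      have : (fS.restrictScalars R).comp c = q.comp f := by
        refine LinearMap.pi_ext' fun i => ?_
        refine LinearMap.ext_ring ?_
        simp [fS, c, Fintype.linearCombination_apply, Pi.single_apply, apply_ite (algebraMap R S),
          ite_smul]
      exact LinearMap.congr_fun this v
    have hcsurj : Function.Surjective c := fun v => by
      choose u hu using fun i => hsurj (v i)
      exact ⟨u, funext hu⟩
    have hfS : Function.Surjective fS := fun w => by
      obtain ⟨y, rfl⟩ := hq w
      obtain ⟨v, rfl⟩ := hf y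
      exact ⟨c v, hc v⟩
    let q' : LinearMap.ker f →ₗ[R] LinearMap.ker fS :=
      { toFun := fun l => ⟨c l, by
          have hl : f l = 0 := LinearMap.mem_ker.1 l.2
          rw [LinearMap.mem_ker, hc, hl, map_zero]⟩
        map_add' := fun a b => by ext1; simp
        map_smul' := fun a b => by ext1; simp }
    refine ih (LinearMap.ker f) (LinearMap.ker fS) ?_ q' ?_ ?_ (hW m fS hfS)
    · intro a b hab
      refine Subtype.ext ((IsSMulRegular.pi fun _ => hxR) ?_)
      exact congrArg Subtype.val hab
    · rintro ⟨w, hw⟩
      obtain ⟨v, rfl⟩ := hcsurj w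
      have hqv : q (f v) = 0 := by rw [← hc]; exact hw
      obtain ⟨z, hz⟩ := (hqker _).1 hqv
      obtain ⟨u, rfl⟩ := hf z
      refine ⟨⟨v - x • u, by simp [hz]⟩, ?_⟩
      ext i
      have hx0 : algebraMap R S x = 0 := (hker x).2 dvd_rfl
      simp [q', c, Algebra.smul_def, hx0]
    · intro l
      constructor
      · intro hl
        have hdvd : ∀ i, x ∣ (l : Fin m → R) i := by
          intro i
          rw [← hker]
          exact congrFun (congrArg Subtype.val hl) i
        choose u hu using hdvd
        have hxu : (l : Fin m → R) = x • (fun i => u i) := funext hu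
        have hfu : f (fun i => u i) = 0 := by
          apply reg
          have := l.2
          rw [LinearMap.mem_ker, hxu, map_smul] at this
          simpa using this
        exact ⟨⟨_, hfu⟩, Subtype.ext hxu⟩
      · rintro ⟨z, rfl⟩
        ext i
        have hx0 : algebraMap R S x = 0 := (hker x).2 dvd_rfl
        simp [q', c, Algebra.smul_def, hx0]

/-- The inductive step: a regular element raises the bound by one. -/
lemma syzBound_succ [IsNoetherianRing R] [IsLocalRing R] {x : R} (hx : x ∈ maximalIdeal R)
    (hxR : IsSMulRegular R x)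
    (hker : ∀ a : R, algebraMap R S a = 0 ↔ x ∣ a)
    (hsurj : Function.Surjective (algebraMap R S)) {n : ℕ} (hS : SyzBound S n) :
    SyzBound R (n + 1) := by
  intro M _ _ _ m f _
  have reg : IsSMulRegular (LinearMap.ker f) x := by
    intro a b hab
    refine Subtype.ext ((IsSMulRegular.pi fun _ => hxR) ?_)
    exact congrArg Subtype.val hab
  let J : Ideal R := RingHom.ker (algebraMap R S)
  let e : (R ⧸ J) ≃+* S := RingHom.quotientKerEquivOfSurjective hsurj
  let W := LinearMap.ker f ⧸ (J • (⊤ : Submodule R (LinearMap.ker f)))
  letI : Module S W := Module.compHom W e.symm.toRingHom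
  have : IsScalarTower R S W := IsScalarTower.of_algebraMap_smul fun r w => by
    change e.symm (algebraMap R S r) • w = r • w
    have h1 : e.symm (algebraMap R S r) = Ideal.Quotient.mk J r :=
      e.symm_apply_eq.2 rfl
    rw [h1]
    exact algebraMap_smul (R ⧸ J) r w
  have : Module.Finite S W := Module.Finite.of_restrictScalars_finite R S W
  have hJ : J = Ideal.span {x} := by
    ext a
    simp [J, hker, Ideal.mem_span_singleton]
  refine syzFree_of_quot hx hxR hker hsurj n _ W reg
    (J • (⊤ : Submodule R (LinearMap.ker f))).mkQ (Submodule.mkQ_surjective _) ?_ (hS W this)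
  intro l
  rw [Submodule.mkQ_apply, Submodule.Quotient.mk_eq_zero, hJ,
    Submodule.ideal_span_singleton_smul, Submodule.mem_smul_pointwise_iff_exists]
  constructor
  · rintro ⟨z, -, rfl⟩; exact ⟨z, rfl⟩
  · rintro ⟨z, rfl⟩; exact ⟨z, Submodule.mem_top, rfl⟩

/-- A local ring of "regular dimension" `n`: it has a weakly regular sequence of length `n` in the
maximal ideal and all syzygies of order `n` are free. -/
def RegDim (R : Type) [CommRing R] [IsLocalRing R] (n : ℕ) : Prop :=
  (∃ rs : List R, rs.length = n ∧ (∀ a ∈ rs, a ∈ maximalIdeal R) ∧ IsWeaklyRegular R rs) ∧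
    SyzBound R n

/-- Induction step for `RegDim`. -/
lemma regDim_succ [IsNoetherianRing R] [IsLocalRing R] [IsLocalRing S] {x : R}
    (hx : x ∈ maximalIdeal R) (hxR : IsSMulRegular R x)
    (hker : ∀ a : R, algebraMap R S a = 0 ↔ x ∣ a)
    (hsurj : Function.Surjective (algebraMap R S)) {n : ℕ} (hS : RegDim S n) :
    RegDim R (n + 1) := by
  refine ⟨?_, syzBound_succ hx hxR hker hsurj hS.2⟩
  obtain ⟨rs, hlen, hmem, hreg⟩ := hS.1
  choose sec hsec using hsurj
  refine ⟨x :: rs.map sec, by simp [hlen], ?_, ?_⟩
  · simp only [List.mem_cons, List.mem_map, forall_eq_or_imp]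
    refine ⟨hx, ?_⟩
    rintro a ⟨b, hb, rfl⟩ hu
    exact hmem b hb (hsec b ▸ hu.map (algebraMap R S))
  · refine IsWeaklyRegular.cons hxR ?_
    have hle : (x • (⊤ : Submodule R R)) = LinearMap.ker (Algebra.linearMap R S) := by
      ext a
      rw [Submodule.mem_smul_pointwise_iff_exists, LinearMap.mem_ker, Algebra.linearMap_apply, hker]
      exact ⟨fun ⟨b, _, hb⟩ => ⟨b, hb.symm⟩, fun ⟨b, hb⟩ => ⟨b, Submodule.mem_top, hb.symm⟩⟩
    let e : QuotSMulTop x R ≃ₗ[R] S :=
      (Submodule.quotEquivOfEq _ _ hle).trans
        (LinearMap.quotKerEquivOfSurjective (Algebra.linearMap R S) fun s => ⟨sec s, hsec s⟩)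
    rw [e.isWeaklyRegular_congr, ← isWeaklyRegular_map_algebraMap_iff S S, List.map_map]
    convert hreg
    conv_rhs => rw [← List.map_id rs]
    exact List.map_congr_left fun a _ => hsec a

/-- A field has `RegDim` zero. -/
lemma regDim_field (k : Type) [Field k] : RegDim k 0 :=
  ⟨⟨[], rfl, by simp, IsWeaklyRegular.nil k k⟩, fun M _ _ _ => Module.Free.of_divisionRing k M⟩

/-- A discrete valuation ring has `RegDim` one. -/
lemma regDim_dvr (O : Type) [CommRing O] [IsDomain O] [IsDiscreteValuationRing O] :
    RegDim O 1 := by
  obtain ⟨ϖ, hϖ⟩ := IsDiscreteValuationRing.exists_irreducible O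
  have hm : maximalIdeal O = Ideal.span {ϖ} := hϖ.maximalIdeal_eq
  refine regDim_succ (S := ResidueField O) (x := ϖ) ?_ ?_ ?_ residue_surjective
    (regDim_field _)
  · rw [hm]; exact Ideal.mem_span_singleton_self ϖ
  · exact fun a b hab => mul_left_cancel₀ hϖ.ne_zero hab
  · intro a
    rw [ResidueField.algebraMap_eq, residue_eq_zero_iff, hm, Ideal.mem_span_singleton]

/-- Transport of `RegDim` through a surjection with kernel generated by a regular element. -/
lemma regDim_succ_ringHom {R S : Type} [CommRing R] [CommRing S] [IsNoetherianRing R]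
    [IsLocalRing R] [IsLocalRing S] (π : R →+* S) (hπ : Function.Surjective π) {x : R}
    (hx : x ∈ maximalIdeal R) (hxR : IsSMulRegular R x) (hker : ∀ a, π a = 0 ↔ x ∣ a)
    {n : ℕ} (hS : RegDim S n) : RegDim R (n + 1) :=
  letI := π.toAlgebra
  regDim_succ hx hxR hker hπ hS

/-- `O[[X_1..X_r]]` has `RegDim` equal to `r + 1`. -/
lemma regDim_mvPowerSeries (O : Type) [CommRing O] [IsDomain O] [IsDiscreteValuationRing O] :
    ∀ r : ℕ, RegDim (MvPowerSeries (Fin r) O) (r + 1)
  | 0 => by
    obtain ⟨ϖ, hϖ⟩ := IsDiscreteValuationRing.exists_irreducible O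
    have hm : maximalIdeal O = Ideal.span {ϖ} := hϖ.maximalIdeal_eq
    let e := MvPowerSeries.isEmptyEquiv (Fin 0) (R := O)
    refine regDim_succ_ringHom ((residue O).comp e.toRingEquiv.toRingHom)
      (residue_surjective.comp e.surjective) (x := e.symm ϖ) ?_ ?_ ?_ (regDim_field _)
    · intro hu
      exact hϖ.not_isUnit (by simpa using hu.map e)
    · intro a b hab
      apply e.injective
      have := congrArg e hab
      simpa [hϖ.ne_zero] using this
    · intro a
      rw [← map_dvd_iff e, e.apply_symm_apply]
      change residue O (e a) = 0 ↔ _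
      rw [residue_eq_zero_iff, hm, Ideal.mem_span_singleton]
  | r + 1 => by
    let e := MvPowerSeries.finSuccEquiv O r
    refine regDim_succ_ringHom (PowerSeries.constantCoeff.comp e.toRingEquiv.toRingHom)
      (PowerSeries.constantCoeff_surj.comp e.surjective) (x := MvPowerSeries.X 0) ?_ ?_ ?_
      (regDim_mvPowerSeries O r)
    · intro hu
      have := hu.map MvPowerSeries.constantCoeff
      simp at this
    · intro a b hab
      apply e.injective
      apply PowerSeries.ext
      intro k
      have h' := congrArg (fun t => PowerSeries.coeff (k + 1) (e t)) hab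
      simpa [e, MvPowerSeries.finSuccEquiv_X_zero] using h'
    · intro a
      rw [← map_dvd_iff e, MvPowerSeries.finSuccEquiv_X_zero, PowerSeries.X_dvd_iff]
      rfl

/-- Free syzygies bound the projective dimension. -/
lemma hasProjectiveDimensionLE_of_syzFree [IsNoetherianRing R] (k : ℕ) :
    ∀ (M : Type) [AddCommGroup M] [Module R M] [Module.Finite R M],
      SyzFree R k M → HasProjectiveDimensionLE (ModuleCat.of R M) k := by
  induction k with
  | zero =>
    intro M _ _ _ hM
    have : Module.Free R M := hM
    rw [HasProjectiveDimensionLE, zero_add, ← projective_iff_hasProjectiveDimensionLT_one,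
      ← IsProjective.iff_projective]
    exact Module.Projective.of_free
  | succ k ih =>
    intro M _ _ _ hM
    obtain ⟨m, f, hf⟩ := Module.Finite.exists_fin' R M
    have := ih (LinearMap.ker f) (hM m f hf)
    have hS : (f.shortComplexKer).ShortExact := LinearMap.shortExact_shortComplexKer hf
    have : Projective (f.shortComplexKer).X₂ := by
      rw [← IsProjective.iff_projective]
      exact Module.Projective.of_free
    exact (hS.hasProjectiveDimensionLT_X₃_iff k ‹_›).2 (ih _ (hM m f hf))

/-- Over `O[[X]]`, a finite module with a regular sequence of full length is free. -/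
lemma free_of_isWeaklyRegular {R : Type} [CommRing R] [IsNoetherianRing R] [IsLocalRing R]
    {n : ℕ} (hR : SyzBound R n) (N : Type) [AddCommGroup N] [Module R N] [Module.Finite R N]
    [Nontrivial N] (ys : List R) (hlen : ys.length = n) (hmem : ∀ y ∈ ys, y ∈ maximalIdeal R)
    (hreg : IsWeaklyRegular N ys) : Module.Free R N := by
  have h1 := ModuleCat.projectiveDimension_quotient_eq_add_length_of_isWeaklyRegular
    (ModuleCat.of R N) ys hreg hmem
  have h2 : projectiveDimension
      (ModuleCat.of R (N ⧸ Ideal.ofList ys • (⊤ : Submodule R N))) ≤ (n : ℕ) :=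
    (projectiveDimension_le_iff _ _).2 (hasProjectiveDimensionLE_of_syzFree n _ (hR _ inferInstance))
  rw [h1, hlen] at h2
  have h3 : projectiveDimension (ModuleCat.of R N) ≤ (0 : ℕ) := by
    have h4 : projectiveDimension (ModuleCat.of R N) + (n : ℕ) ≤ ((0 : ℕ) : WithBot ℕ∞) + (n : ℕ) := by
      simpa using h2
    exact (ENat.WithBot.add_le_add_natCast_right_iff).1 h4
  rw [projectiveDimension_le_iff, HasProjectiveDimensionLE, zero_add,
    ← projective_iff_hasProjectiveDimensionLT_one, ← IsProjective.iff_projective] at h3
  exact Module.free_of_flat_of_isLocalRing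

end Fermat.Agent.Patching
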