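import Fermat.Prelude.Def_Algebra_PatchingDatum
import Fermat.Agent.Patching.SyzygyBound

/-!
# Descent at a patching level with trivial relation ideal
-/

set_option autoImplicit false

namespace Fermat.Agent.Patching

open IsLocalRing RingTheory.Sequence

variable {𝒪 : Type} [CommRing 𝒪] {r : ℕ} {R : Type} [CommRing R] [Algebra 𝒪 R]
  {M : Type} [AddCommGroup M] [Module R M]

/-- The basis `b` identifies `P^d` with `N`, semilinearly along `φ`. -/
noncomputable def levelEquiv (L : Algebra.PatchingLevel 𝒪 r R M ⊥) :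
    (Fin L.d → MvPowerSeries (Fin r) 𝒪) ≃+ L.N :=
  AddEquiv.ofBijective
    (AddMonoidHom.mk' (fun c : Fin L.d → MvPowerSeries (Fin r) 𝒪 => ∑ i, L.φ (c i) • L.b i)
      fun c c' => by simp [add_smul, Finset.sum_add_distrib])
    ⟨(injective_iff_map_eq_zero _).2 fun c hc => funext fun i => Ideal.mem_bot.1 ((L.b_rel c).1 hc i),
      fun y => by obtain ⟨c, hc⟩ := L.b_span y; exact ⟨c, hc.symm⟩⟩

lemma levelEquiv_smul (L : Algebra.PatchingLevel 𝒪 r R M ⊥) (a : MvPowerSeries (Fin r) 𝒪)
    (c : Fin L.d → MvPowerSeries (Fin r) 𝒪) :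
    levelEquiv L (a • c) = L.φ a • levelEquiv L c := by
  simp [levelEquiv, Finset.smul_sum, mul_smul]

lemma nontrivial_N [Nontrivial M] {J : Ideal (MvPowerSeries (Fin r) 𝒪)}
    (L : Algebra.PatchingLevel 𝒪 r R M J) : Nontrivial L.N :=
  L.π_surjective.nontrivial

lemma finite_N {J : Ideal (MvPowerSeries (Fin r) 𝒪)} (L : Algebra.PatchingLevel 𝒪 r R M J) :
    Module.Finite (MvPowerSeries (Fin r) 𝒪) L.N := by
  classical
  refine ⟨⟨Finset.univ.image L.b, eq_top_iff.2 fun x _ => ?_⟩⟩
  obtain ⟨c, rfl⟩ := L.b_span x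
  exact Submodule.sum_mem _ fun i _ => Submodule.smul_mem _ _ (Submodule.subset_span (by simp))

/-- The module `N` is free for the acting structure. -/
lemma free_N [IsDomain 𝒪] [IsDiscreteValuationRing 𝒪] [Nontrivial M]
    (L : Algebra.PatchingLevel 𝒪 r R M ⊥) : Module.Free (MvPowerSeries (Fin r) 𝒪) L.N := by
  obtain ⟨⟨rs, hlen, hmem, hreg⟩, hsyz⟩ := regDim_mvPowerSeries 𝒪 r
  have := nontrivial_N L
  have := finite_N L
  refine free_of_isWeaklyRegular hsyz L.N (rs.map L.φ) (by simp [hlen]) ?_ ?_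
  · intro y hy hu
    obtain ⟨a, ha, rfl⟩ := List.mem_map.1 hy
    have hd : 0 < L.d := by
      by_contra hd
      have hsub : Subsingleton (Fin L.d → MvPowerSeries (Fin r) 𝒪) := by
        have : L.d = 0 := by omega
        rw [this]; infer_instance
      exact not_subsingleton L.N ((levelEquiv L).symm.injective.subsingleton)
    obtain ⟨u, hu⟩ := hu
    obtain ⟨c, hc⟩ := (levelEquiv L).surjective
      (((u⁻¹ : (MvPowerSeries (Fin r) 𝒪)ˣ) : MvPowerSeries (Fin r) 𝒪) •
        levelEquiv L (fun _ => 1))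
    have h1 : a • c = fun _ => (1 : MvPowerSeries (Fin r) 𝒪) := by
      apply (levelEquiv L).injective
      rw [levelEquiv_smul, hc, ← hu, ← mul_smul, u.mul_inv, one_smul]
    exact hmem a ha (IsUnit.of_mul_eq_one _ (congrFun h1 ⟨0, hd⟩))
  · have hfree : IsWeaklyRegular (Fin L.d → MvPowerSeries (Fin r) 𝒪) rs :=
      ((TensorProduct.rid (MvPowerSeries (Fin r) 𝒪) _).isWeaklyRegular_congr rs).1
        (hreg.isWeaklyRegular_lTensor (M₂ := Fin L.d → MvPowerSeries (Fin r) 𝒪))
    refine ((levelEquiv L).isWeaklyRegular_congr ?_).1 hfree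
    rw [List.forall₂_map_right_iff, List.forall₂_same]
    exact fun a _ c => levelEquiv_smul L a c

/-- Conclusion of the descent step, given that `N` is free. -/
theorem descent {J : Ideal (MvPowerSeries (Fin r) 𝒪)} [Nontrivial M]
    (L : Algebra.PatchingLevel 𝒪 r R M J) [Module.Free (MvPowerSeries (Fin r) 𝒪) L.N] :
    Module.Free R M ∧ Module.annihilator R M = ⊥ ∧
      RingHom.ker L.ψ = Ideal.span (Set.range fun i : Fin r => L.φ (MvPowerSeries.X i)) := by
  classical
  set I := Ideal.span (Set.range fun i : Fin r => L.φ (MvPowerSeries.X i)) with hI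
  have := nontrivial_N L
  let ι := Module.Free.ChooseBasisIndex (MvPowerSeries (Fin r) 𝒪) L.N
  let β : Module.Basis ι (MvPowerSeries (Fin r) 𝒪) L.N := Module.Free.chooseBasis _ _
  obtain ⟨i₀⟩ := β.index_nonempty
  have hIψ : ∀ f ∈ I, L.ψ f = 0 := by
    have : I ≤ RingHom.ker L.ψ := Ideal.span_le.2 (by rintro _ ⟨i, rfl⟩; exact L.ψ_φ_X i)
    exact fun f hf => this hf
  have hcoord : ∀ y : L.N, L.π y = 0 → ∀ i, β.repr y i ∈ I := by
    intro y hy i
    refine Submodule.smul_induction_on (p := fun z => β.repr z i ∈ I) ((L.ker_π y).1 hy) ?_ ?_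
    · intro a ha n _
      simpa using I.mul_mem_right _ ha
    · intro z z' hz hz'
      simpa using I.add_mem hz hz'
  have hkill : ∀ f, (∀ z : M, L.ψ f • z = 0) → f ∈ I := by
    intro f hf
    have := hcoord (f • β i₀) (by rw [L.π_smul]; exact hf _) i₀
    simpa using this
  refine ⟨?_, ?_, ?_⟩
  · refine Module.Free.of_basis (Module.Basis.mk (v := fun i => L.π (β i)) ?_ ?_)
    · rw [linearIndependent_iff']
      intro s g hg i hi
      choose f hf using fun j => L.ψ_surjective (g j)
      have h0 : L.π (∑ j ∈ s, f j • β j) = 0 := by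
        simpa [map_sum, L.π_smul, hf] using hg
      have := hcoord _ h0 i
      rw [← hf i]
      refine hIψ _ ?_
      simpa [Finsupp.single_apply, hi] using this
    · intro z _
      obtain ⟨y, rfl⟩ := L.π_surjective z
      rw [← β.linearCombination_repr y, Finsupp.linearCombination_apply, Finsupp.sum, map_sum]
      exact Submodule.sum_mem _ fun i _ => by
        rw [L.π_smul]
        exact Submodule.smul_mem _ _ (Submodule.subset_span ⟨i, rfl⟩)
  · rw [eq_bot_iff]
    intro a ha
    obtain ⟨f, rfl⟩ := L.ψ_surjective a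
    exact Ideal.mem_bot.2 (hIψ f (hkill f fun z => Module.mem_annihilator.1 ha z))
  · ext f
    exact ⟨fun hf => hkill f fun z => by rw [RingHom.mem_ker.1 hf, zero_smul], hIψ f⟩

end Fermat.Agent.Patching
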